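import Mathlib

/-!
# CROSS, step 1 (helper669): cyclotomic polynomials of prime level stay irreducible over a number
field in which the prime is unramified.
-/

set_option autoImplicit false

open NumberField Polynomial

namespace Fermat.Agent.Lib.Cheb.H669

/-- If `f.comp (X + C a)` is irreducible then so is `f` (over a domain). -/
theorem irreducible_of_comp_X_add_C {R : Type*} [CommRing R] [IsDomain R] (a : R) {f : R[X]}
    (h : Irreducible (f.comp (X + C a))) : Irreducible f := by
  have key : ∀ g : R[X], (g.comp (X + C a)).comp (X - C a) = g := by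
    intro g
    rw [comp_assoc]
    simp
  have hunit : ∀ g : R[X], IsUnit (g.comp (X + C a)) → IsUnit g := by
    intro g hg
    have := hg.map (compRingHom (X - C a))
    simpa [key] using this
  refine ⟨fun hu => h.not_isUnit (hu.map (compRingHom (X + C a))), ?_⟩
  intro p q hpq
  have h2 : f.comp (X + C a) = p.comp (X + C a) * q.comp (X + C a) := by
    rw [hpq, mul_comp]
  rcases h.isUnit_or_isUnit h2 with hp | hq
  · exact Or.inl (hunit p hp)
  · exact Or.inr (hunit q hq)

/-- Eisenstein: if a prime `P` of `𝓞 L` contains the prime number `m` but `P ^ 2` does not, then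
the `m`-th cyclotomic polynomial is irreducible over `L`. -/
theorem irreducible_cyclotomic_of_notMem_sq (L : Type*) [Field L] [NumberField L] (m : ℕ)
    (hm : m.Prime) (P : Ideal (𝓞 L)) (hP : P.IsPrime) (hmP : (m : 𝓞 L) ∈ P)
    (hmP2 : (m : 𝓞 L) ∉ P ^ 2) : Irreducible (cyclotomic m L) := by
  have : Fact m.Prime := ⟨hm⟩
  set fZ : ℤ[X] := (cyclotomic m ℤ).comp (X + 1) with hfZ
  set f : (𝓞 L)[X] := (cyclotomic m (𝓞 L)).comp (X + 1) with hf
  have hfmap : fZ.map (Int.castRingHom (𝓞 L)) = f := by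
    simp [hfZ, hf, Polynomial.map_comp, map_cyclotomic]
  have hE : fZ.IsEisensteinAt (Submodule.span ℤ {(m : ℤ)}) :=
    cyclotomic_comp_X_add_one_isEisensteinAt m
  have hfZmonic : fZ.Monic := by
    rw [hfZ, show (X + 1 : ℤ[X]) = X + C 1 by simp]
    refine (cyclotomic.monic m ℤ).comp (monic_X_add_C 1) fun h => ?_
    rw [natDegree_X_add_C] at h
    exact zero_ne_one h.symm
  have hfmonic : f.Monic := hfmap ▸ hfZmonic.map _
  have hdeg : f.natDegree = fZ.natDegree := by
    rw [← hfmap, hfZmonic.natDegree_map]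
  have hEis : f.IsEisensteinAt P := by
    refine hfmonic.isEisensteinAt_of_mem_of_notMem hP.ne_top (fun {n} hn => ?_) ?_
    · have h1 : fZ.coeff n ∈ Submodule.span ℤ {(m : ℤ)} := hE.mem (hdeg ▸ hn)
      obtain ⟨c, hc⟩ := Ideal.mem_span_singleton'.mp h1
      rw [← hfmap, coeff_map, ← hc]
      simp only [eq_intCast, Int.cast_mul, Int.cast_natCast]
      exact P.mul_mem_left _ hmP
    · have h0 : f.coeff 0 = (m : 𝓞 L) := by
        rw [coeff_zero_eq_eval_zero, hf, eval_comp]
        simp [eval_one_cyclotomic_prime]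
      rw [h0]
      exact hmP2
  have hfdeg : 0 < f.natDegree := by
    rw [hdeg, hfZ, natDegree_comp]
    have h1 : (X + 1 : ℤ[X]).natDegree = 1 := by
      rw [show (X + 1 : ℤ[X]) = X + C 1 by simp, natDegree_X_add_C]
    rw [h1, mul_one, natDegree_cyclotomic]
    exact Nat.totient_pos.mpr hm.pos
  have hirr : Irreducible f := hEis.irreducible hP hfmonic.isPrimitive hfdeg
  have hirrL : Irreducible (f.map (algebraMap (𝓞 L) L)) :=
    (Monic.irreducible_iff_irreducible_map_fraction_map (K := L) hfmonic).mp hirr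
  have hmapL : f.map (algebraMap (𝓞 L) L) = (cyclotomic m L).comp (X + C 1) := by
    simp [hf, Polynomial.map_comp, map_cyclotomic]
  rw [hmapL] at hirrL
  exact irreducible_of_comp_X_add_C 1 hirrL

/-- A prime `m` not dividing the discriminant of `L` has a prime `P` of `𝓞 L` above it with
`m ∉ P ^ 2`. -/
theorem exists_prime_notMem_sq (L : Type*) [Field L] [NumberField L] (m : ℕ) (hm : m.Prime)
    (hdisc : ¬ (m : ℤ) ∣ discr L) :
    ∃ P : Ideal (𝓞 L), P.IsPrime ∧ (m : 𝓞 L) ∈ P ∧ (m : 𝓞 L) ∉ P ^ 2 := by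
  have hmZ : Prime (m : ℤ) := Nat.prime_iff_prime_int.mp hm
  have hne : (Ideal.span {(m : ℤ)} : Ideal ℤ) ≠ ⊥ := by
    simpa using hm.ne_zero
  have hmax : (Ideal.span {(m : ℤ)} : Ideal ℤ).IsMaximal :=
    ((Ideal.span_singleton_prime hmZ.ne_zero).mpr hmZ).isMaximal hne
  obtain ⟨P, hPmax, hPover⟩ :=
    Ideal.exists_maximal_ideal_liesOver_of_isIntegral (S := 𝓞 L) (Ideal.span {(m : ℤ)})
  have hPprime : P.IsPrime := hPmax.isPrime
  have hmem : (m : 𝓞 L) ∈ P := by
    have h1 : (m : ℤ) ∈ P.under ℤ := by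
      rw [← hPover.over]
      exact Ideal.mem_span_singleton_self _
    simpa [Ideal.under, Ideal.mem_comap] using h1
  have hunr : Algebra.IsUnramifiedAt ℤ P :=
    (not_dvd_discr_iff_forall_mem L (𝓞 L) hmZ).mp hdisc P hPprime (by simpa using hmem)
  refine ⟨P, hPprime, hmem, fun hsq => ?_⟩
  have h1 : P.ramificationIdx ℤ = 1 := Ideal.ramificationIdx_eq_one P ℤ
  have h2 : (Ideal.span {(m : ℤ)}).ramificationIdx' P = 1 := by
    rw [Ideal.ramificationIdx'_eq_ramificationIdx (Ideal.span {(m : ℤ)}) P hne, h1]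
  have hle : (Ideal.span {(m : ℤ)}).map (algebraMap ℤ (𝓞 L)) ≤ P := by
    rw [Ideal.map_span, Ideal.span_le]
    rintro _ ⟨x, hx, rfl⟩
    rw [Set.mem_singleton_iff] at hx
    subst hx
    simpa using hmem
  have h3 := (Ideal.ramificationIdx'_ne_one_iff hle).not.mp (by simpa using h2)
  apply h3
  rw [Ideal.map_span, Ideal.span_le]
  rintro _ ⟨x, hx, rfl⟩
  rw [Set.mem_singleton_iff] at hx
  subst hx
  simpa using hsq

/-- For every number field `L`, every `n ≠ 0` and every bound `N` there is a prime `m > N`,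
`m ≡ 1 mod n`, such that the `m`-th cyclotomic polynomial is irreducible over `L`. -/
theorem exists_prime_irreducible_cyclotomic (L : Type*) [Field L] [NumberField L] (n : ℕ)
    (hn : n ≠ 0) (N : ℕ) :
    ∃ m : ℕ, m.Prime ∧ N < m ∧ m ≡ 1 [MOD n] ∧ Irreducible (cyclotomic m L) := by
  obtain ⟨m, hm, hgt, hmod⟩ := Nat.exists_prime_gt_modEq_one (max N (discr L).natAbs) hn
  have hN : N < m := lt_of_le_of_lt (le_max_left _ _) hgt
  have hd : (discr L).natAbs < m := lt_of_le_of_lt (le_max_right _ _) hgt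
  have hdisc : ¬ (m : ℤ) ∣ discr L := by
    intro hdvd
    have : discr L = 0 := by
      apply Int.eq_zero_of_abs_lt_dvd hdvd
      rw [Int.abs_eq_natAbs]
      exact_mod_cast hd
    exact discr_ne_zero L this
  obtain ⟨P, hP, h1, h2⟩ := exists_prime_notMem_sq L m hm hdisc
  exact ⟨m, hm, hN, hmod, irreducible_cyclotomic_of_notMem_sq L m hm P hP h1 h2⟩

end Fermat.Agent.Lib.Cheb.H669
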