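import Fermat.Agent.Lib.Cheb.Spec
import Fermat.Agent.Lib.Cheb.H669.CycloIrr

/-!
# CROSS (helper669): Chebotarev's field-crossing argument, finite level

`cross : Spec.CrossStatement`, i.e. `FrobStatement → CycStatement → ChebFiniteStatement`.

Given `σ ∈ Gal(L/ℚ)` of order `n`, choose a prime `m ≡ 1 mod n` with `Φ_m` irreducible over `L`
(`CycloIrr.lean`), put `E = L(ζ_m)`, and let `g ∈ Gal(E/ℚ)` restrict to `σ` on `L` and act on
`ζ_m` through an element of `(ℤ/m)ˣ` of order exactly `n`.  Then `⟨g⟩` acts faithfully on `ζ_m`,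
so the cyclotomic case gives a prime `P'` of `E` with Frobenius `g`; its restriction to `L` has
Frobenius `σ`.
-/

set_option autoImplicit false

open NumberField Polynomial

namespace Fermat.Agent.Lib.Cheb.H669

section Construction

variable (L : Type) [Field L] [NumberField L] [IsGalois ℚ L] (m : ℕ) [NeZero m]

/-- `L(ζ_m)` is Galois over `ℚ`. -/
theorem isGalois_cyclotomicField : IsGalois ℚ (CyclotomicField m L) := by
  obtain ⟨p, hsep, hsplit⟩ := IsGalois.is_separable_splitting_field ℚ L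
  have hp0 : p ≠ 0 := hsep.ne_zero
  have hc0 : cyclotomic m ℚ ≠ 0 := cyclotomic_ne_zero m ℚ
  have h1 : IsSplittingField L (CyclotomicField m L) (map (algebraMap ℚ L) (cyclotomic m ℚ)) := by
    rw [map_cyclotomic]
    exact IsCyclotomicExtension.splitting_field_cyclotomic m L (CyclotomicField m L)
  have h2 : IsSplittingField ℚ (CyclotomicField m L) (p * cyclotomic m ℚ) :=
    IsSplittingField.mul (K := L) (CyclotomicField m L) p (cyclotomic m ℚ) hp0 hc0
  have h3 : Normal ℚ (CyclotomicField m L) := Normal.of_isSplittingField (p * cyclotomic m ℚ)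
  exact IsGalois.mk

/-- An element of `(ℤ/m)ˣ` of any order dividing `m - 1`. -/
theorem exists_unit_orderOf (hm : m.Prime) (n : ℕ) (hmod : m ≡ 1 [MOD n]) :
    ∃ t : (ZMod m)ˣ, orderOf t = n := by
  have : Fact m.Prime := ⟨hm⟩
  obtain ⟨u, hu⟩ := IsCyclic.exists_ofOrder_eq_natCard (α := (ZMod m)ˣ)
  have hcard : Nat.card (ZMod m)ˣ = m - 1 := by
    rw [Nat.card_eq_fintype_card, ZMod.card_units]
  rw [hcard] at hu
  have hdvd : n ∣ m - 1 := (Nat.modEq_iff_dvd' hm.one_le).mp hmod.symm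
  obtain ⟨c, hc⟩ := hdvd
  have hm1 : m - 1 ≠ 0 := by have := hm.two_le; omega
  have hc0 : c ≠ 0 := by
    rintro rfl
    exact hm1 (by simpa using hc)
  refine ⟨u ^ c, ?_⟩
  rw [orderOf_pow_of_dvd hc0 (by rw [hu, hc]; exact dvd_mul_left c n), hu, hc]
  exact Nat.mul_div_cancel _ (Nat.pos_of_ne_zero hc0)

/-- Two units of `ZMod m` giving the same power of a primitive `m`-th root of unity agree. -/
theorem unit_eq_of_pow_eq {E : Type*} [CommRing E] [IsDomain E] {ζ : E}
    (hζ : IsPrimitiveRoot ζ m) (a b : (ZMod m)ˣ)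
    (h : ζ ^ (a : ZMod m).val = ζ ^ (b : ZMod m).val) : a = b := by
  have h1 := hζ.pow_inj (ZMod.val_lt _) (ZMod.val_lt _) h
  exact Units.ext (ZMod.val_injective m h1)

omit [IsGalois ℚ L] in
/-- The crossing element: a lift `g` of `σ` to `E = L(ζ_m)` such that `⟨g⟩` acts faithfully
on `ζ_m`. -/
theorem exists_lift_faithful_aux {E : Type} [Field E] [Algebra L E] [Algebra ℚ E]
    [IsScalarTower ℚ L E] [Normal ℚ E] [IsCyclotomicExtension {m} L E]
    (σ : L ≃ₐ[ℚ] L) (hm : m.Prime)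
    (hmod : m ≡ 1 [MOD orderOf σ]) (hirr : Irreducible (cyclotomic m L)) :
    ∃ g : E ≃ₐ[ℚ] E,
      (∀ x : L, g (algebraMap L E x) = algebraMap L E (σ x)) ∧
      (∀ k : ℕ, (g ^ k) (IsCyclotomicExtension.zeta m L E) =
          IsCyclotomicExtension.zeta m L E → g ^ k = 1) := by
  have hζ : IsPrimitiveRoot (IsCyclotomicExtension.zeta m L E) m :=
    IsCyclotomicExtension.zeta_spec m L E
  have hm1 : 1 < m := hm.one_lt
  obtain ⟨t, ht⟩ := exists_unit_orderOf m hm (orderOf σ) hmod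
  let χ : (E ≃ₐ[ℚ] E) →* (ZMod m)ˣ := hζ.autToPow ℚ
  let e : (E ≃ₐ[L] E) ≃* (ZMod m)ˣ := IsCyclotomicExtension.autEquivPow E hirr
  let σ' : E ≃ₐ[ℚ] E := σ.liftNormal E
  let h : E ≃ₐ[L] E := e.symm (t * (χ σ')⁻¹)
  let hQ : E ≃ₐ[ℚ] E := h.restrictScalars ℚ
  have hχspec : ∀ f : E ≃ₐ[ℚ] E, (IsCyclotomicExtension.zeta m L E) ^
      ((χ f : (ZMod m)ˣ) : ZMod m).val = f (IsCyclotomicExtension.zeta m L E) :=
    fun f => hζ.autToPow_spec ℚ f
  have hespec : ∀ f : E ≃ₐ[L] E, (IsCyclotomicExtension.zeta m L E) ^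
      ((e f : (ZMod m)ˣ) : ZMod m).val = f (IsCyclotomicExtension.zeta m L E) := by
    intro f
    have := (IsCyclotomicExtension.zeta_spec m L E).autToPow_spec L f
    simp only [e, IsCyclotomicExtension.autEquivPow_apply]
    exact this
  have hχh : χ hQ = t * (χ σ')⁻¹ := by
    have h1 : χ hQ = e h := by
      apply unit_eq_of_pow_eq m hζ
      rw [hχspec, hespec]
      rfl
    rw [h1]
    exact e.apply_symm_apply _
  have hgL1 : ∀ x : L, (σ' * hQ) (algebraMap L E x) = algebraMap L E (σ x) := by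
    intro x
    have h1 : hQ (algebraMap L E x) = algebraMap L E x := h.commutes x
    rw [AlgEquiv.mul_apply, h1]
    exact σ.liftNormal_commutes E x
  refine ⟨σ' * hQ, hgL1, ?_⟩
  have hgL : ∀ (k : ℕ) (x : L),
      ((σ' * hQ) ^ k) (algebraMap L E x) = algebraMap L E ((σ ^ k) x) := by
    intro k
    induction k with
    | zero => intro x; simp
    | succ k ih =>
      intro x
      have h1 : ((σ' * hQ) ^ (k + 1)) (algebraMap L E x) =
          ((σ' * hQ) ^ k) ((σ' * hQ) (algebraMap L E x)) := by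
        rw [pow_succ]; rfl
      have h2 : (σ ^ (k + 1)) x = (σ ^ k) (σ x) := by
        rw [pow_succ]; rfl
      rw [h1, h2, hgL1, ih]
  have hχg : χ (σ' * hQ) = t := by
    rw [map_mul, hχh]
    rw [mul_comm t, ← mul_assoc, mul_inv_cancel, one_mul]
  intro k hk
  have h1 : χ ((σ' * hQ) ^ k) = 1 := by
    apply unit_eq_of_pow_eq m hζ
    rw [hχspec, hk]
    have : ((1 : (ZMod m)ˣ) : ZMod m).val = 1 := by
      have : Fact (1 < m) := ⟨hm1⟩
      simp [ZMod.val_one]
    rw [this, pow_one]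
  rw [map_pow, hχg] at h1
  have h2 : orderOf σ ∣ k := ht ▸ orderOf_dvd_iff_pow_eq_one.mpr h1
  have h3 : σ ^ k = 1 := orderOf_dvd_iff_pow_eq_one.mp h2
  -- `g ^ k` is an `L`-algebra endomorphism of `E` fixing `ζ`
  let φ : E →ₐ[L] E :=
    { (((σ' * hQ) ^ k : E ≃ₐ[ℚ] E) : E →+* E) with
      commutes' := fun x => by
        have := hgL k x
        rw [h3] at this
        exact this }
  have hφ : φ = AlgHom.id L E := by
    apply AlgHom.ext_of_adjoin_eq_top (IsCyclotomicExtension.adjoin_primitive_root_eq_top hζ)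
    intro y hy
    rw [Set.mem_singleton_iff] at hy
    subst hy
    exact hk
  ext y
  exact DFunLike.congr_fun hφ y

end Construction

section Restrict

variable {L E : Type} [Field L] [NumberField L] [Field E] [NumberField E] [Algebra L E]

/-- Restriction of an arithmetic Frobenius along `𝓞 L → 𝓞 E`. -/
theorem isArithFrobAt_comap (σ : L ≃ₐ[ℚ] L) (g : E ≃ₐ[ℚ] E)
    (hg : ∀ x : L, g (algebraMap L E x) = algebraMap L E (σ x))
    (P' : Ideal (𝓞 E)) (hF : IsArithFrobAt ℤ g P') :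
    IsArithFrobAt ℤ σ (P'.comap (algebraMap (𝓞 L) (𝓞 E))) := by
  have hunder : (P'.comap (algebraMap (𝓞 L) (𝓞 E))).under ℤ = P'.under ℤ := by
    rw [Ideal.under, Ideal.under, Ideal.comap_comap]
    congr 1
    exact Subsingleton.elim _ _
  intro x
  rw [hunder, Ideal.mem_comap, map_sub, map_pow]
  have h1 := hF (algebraMap (𝓞 L) (𝓞 E) x)
  have h2 : (MulSemiringAction.toAlgHom ℤ (𝓞 E) g) (algebraMap (𝓞 L) (𝓞 E) x) =
      algebraMap (𝓞 L) (𝓞 E) ((MulSemiringAction.toAlgHom ℤ (𝓞 L) σ) x) := by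
    apply RingOfIntegers.ext
    exact hg (x : L)
  rw [← h2]
  exact h1

end Restrict

/-- **CROSS**: field crossing.  The finite-level Frobenius statement and the cyclotomic case
imply finite-level qualitative Chebotarev. -/
theorem cross : Spec.CrossStatement := by
  intro hFrob hCyc L _ _ _ σ S
  obtain ⟨B, hB⟩ := hFrob L
  have hn : orderOf σ ≠ 0 := (orderOf_pos σ).ne'
  obtain ⟨m, hm, -, hmod, hirr⟩ := exists_prime_irreducible_cyclotomic L (orderOf σ) hn 0
  have hm0 : NeZero m := ⟨hm.ne_zero⟩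
  have hGal : IsGalois ℚ (CyclotomicField m L) := isGalois_cyclotomicField L m
  obtain ⟨g, hgL, hgf⟩ :=
    exists_lift_faithful_aux L m (E := CyclotomicField m L) σ hm hmod hirr
  obtain ⟨p, P', hp, hpS, hP', hpP', -, hF⟩ :=
    hCyc (CyclotomicField m L) m (IsCyclotomicExtension.zeta m L (CyclotomicField m L)) hm.pos
      (IsCyclotomicExtension.zeta_spec m L (CyclotomicField m L)) g hgf (S ∪ B)
  have hpS' : p ∉ S := fun h => hpS (Finset.mem_union_left _ h)
  have hpB : p ∉ B := fun h => hpS (Finset.mem_union_right _ h)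
  have hPprime : (P'.comap (algebraMap (𝓞 L) (𝓞 (CyclotomicField m L)))).IsPrime :=
    Ideal.comap_isPrime _ _
  have hpP : (p : 𝓞 L) ∈ P'.comap (algebraMap (𝓞 L) (𝓞 (CyclotomicField m L))) := by
    rw [Ideal.mem_comap, map_natCast]
    exact hpP'
  exact ⟨p, P'.comap (algebraMap (𝓞 L) (𝓞 (CyclotomicField m L))), hp, hpS', hPprime, hpP,
    (hB p hp hpB _ hPprime hpP).1, isArithFrobAt_comap σ g hgL P' hF⟩

end Fermat.Agent.Lib.Cheb.H669
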